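import Mathlib.Combinatorics.SimpleGraph.Clique
import Mathlib.Combinatorics.SimpleGraph.Finite
import Mathlib.Analysis.SpecialFunctions.Log.Basic
import Mathlib.Analysis.Real.Sqrt
import Mathlib.Data.Nat.Choose.Sum

/-!
# Independent sets in triangle-free graphs

A triangle-free graph on `n` vertices of maximum degree at most `d` has an independent set of at
least `n log d / (8 d)` vertices (Ajtai, Komlós and Szemerédi; Shearer): a uniformly chosen
independent set contains a vertex or many of its neighbours.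
-/

set_option autoImplicit false

noncomputable section

namespace FA.RamseyThree

open Finset

variable {V : Type*} [Fintype V]

/-- The local inequality: `d` for the vertex against `2 ^ x` choices among its free neighbours. -/
theorem local_count_bound {d : ℝ} (hd : 1 ≤ d) (x : ℕ) :
    Real.log d / 4 * (1 + 2 ^ x) ≤ d + (x * 2 ^ (x - 1) : ℕ) := by
  have hcast : ((x * 2 ^ (x - 1) : ℕ) : ℝ) * 2 = (x : ℝ) * 2 ^ x := by
    rcases x with _ | x
    · simp
    · push_cast [Nat.add_sub_cancel]; ring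
  have hL0 : 0 ≤ Real.log d := Real.log_nonneg hd
  have hs : 1 ≤ √d := Real.one_le_sqrt.2 hd
  have hL : Real.log d ≤ 2 * √d := by
    have h1 := Real.log_le_sub_one_of_pos (zero_lt_one.trans_le hs)
    rw [Real.log_sqrt (zero_le_one.trans hd)] at h1
    linarith
  have hsd : √d * √d = d := Real.mul_self_sqrt (zero_le_one.trans hd)
  have hx0 : (0 : ℝ) ≤ ((x * 2 ^ (x - 1) : ℕ) : ℝ) := Nat.cast_nonneg' _
  have h2 : (0 : ℝ) ≤ 2 ^ x := by positivity
  rcases le_total (Real.log d) (2 * (x : ℝ)) with h | h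
  · nlinarith [mul_le_mul_of_nonneg_right h h2]
  · have hpow : (2 : ℝ) ^ x ≤ √d := by
      refine le_trans ?_ (Real.exp_log (zero_lt_one.trans_le hs)).le
      rw [Real.log_sqrt (zero_le_one.trans hd)]
      refine le_trans (pow_le_pow_left₀ two_pos.le
        (by linarith [Real.add_one_le_exp (1 : ℝ)] : (2 : ℝ) ≤ Real.exp 1) x) ?_
      rw [← Real.exp_nat_mul, mul_one, Real.exp_le_exp]
      linarith
    nlinarith [mul_le_mul_of_nonneg_left hpow hL0, mul_le_mul_of_nonneg_right hL (zero_le_one.trans hs)]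

/-- **The independence number of a triangle-free graph.** -/
theorem exists_indepSet_card_ge (G : SimpleGraph V) [DecidableRel G.Adj] (hG : G.CliqueFree 3)
    {d : ℕ} (hd : 1 ≤ d) (hdeg : ∀ v, G.degree v ≤ d) :
    ∃ I : Finset V, G.IsIndepSet ↑I ∧
      (Fintype.card V : ℝ) * Real.log d / (8 * d) ≤ (I.card : ℝ) := by
  classical
  obtain ⟨F, hF⟩ : ∃ F : Finset (Finset V), F = univ.filter fun I : Finset V => G.IsIndepSet ↑I :=
    ⟨_, rfl⟩
  have hmemF : ∀ I, I ∈ F ↔ ∀ a ∈ I, ∀ b ∈ I, ¬ G.Adj a b := fun I => by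
    rw [hF]
    simp only [mem_filter, mem_univ, true_and, SimpleGraph.isIndepSet_iff]
    exact ⟨fun h a ha b hb hab => h (mem_coe.2 ha) (mem_coe.2 hb) hab.ne hab,
      fun h a ha b hb _ => h a ha b hb⟩
  have hne : F.Nonempty := ⟨∅, (hmemF ∅).2 (by simp)⟩
  obtain ⟨X, hX⟩ : ∃ X : V → Finset V → ℝ,
      X = fun v I => (if v ∈ I then (d : ℝ) else 0) + ((I ∩ G.neighborFinset v).card : ℝ) :=
    ⟨_, rfl⟩
  have hup : ∀ I ∈ F, ∑ v, X v I ≤ 2 * (d : ℝ) * I.card := by
    intro I _
    rw [hX]
    simp only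
    rw [sum_add_distrib, sum_ite_mem, univ_inter, sum_const, nsmul_eq_mul]
    have h1 : ∑ v, (I ∩ G.neighborFinset v).card = ∑ u ∈ I, G.degree u := by
      simp only [← filter_mem_eq_inter, card_filter]
      rw [sum_comm]
      refine sum_congr rfl fun u _ => ?_
      rw [← G.card_neighborFinset_eq_degree, sum_boole, Nat.cast_id]
      congr 1
      ext v
      simp [SimpleGraph.adj_comm]
    have h2 : (∑ v, ((I ∩ G.neighborFinset v).card : ℝ)) ≤ (I.card : ℝ) * d := by
      rw [← Nat.cast_sum, h1, ← Nat.cast_mul, Nat.cast_le]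
      exact (sum_le_card_nsmul I _ d fun u _ => hdeg u).trans (by simp)
    linarith
  have hlow : ∀ v, (F.card : ℝ) * (Real.log d / 4) ≤ ∑ I ∈ F, X v I := by
    intro v
    obtain ⟨W, hW⟩ : ∃ W, W = insert v (G.neighborFinset v) := ⟨_, rfl⟩
    have hW' : ∀ a, a ∈ W ↔ a = v ∨ G.Adj v a := fun a => by simp [hW]
    have hmaps : ∀ I ∈ F, I \ W ∈ F.image (fun I => I \ W) := fun I hI => mem_image_of_mem _ hI
    rw [← sum_fiberwise_of_maps_to hmaps, card_eq_sum_card_fiberwise (f := fun I => I \ W) hmaps,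
      Nat.cast_sum, sum_mul]
    refine sum_le_sum fun J hJ => ?_
    obtain ⟨I₀, hI₀, rfl⟩ := mem_image.1 hJ
    obtain ⟨J, hJdef⟩ : ∃ J, J = I₀ \ W := ⟨_, rfl⟩
    rw [← hJdef]
    have hJW : ∀ a ∈ J, a ∉ W := fun a ha => (mem_sdiff.1 (hJdef ▸ ha)).2
    have hJind : ∀ a ∈ J, ∀ b ∈ J, ¬ G.Adj a b := fun a ha b hb =>
      (hmemF I₀).1 hI₀ a (mem_sdiff.1 (hJdef ▸ ha)).1 b (mem_sdiff.1 (hJdef ▸ hb)).1
    obtain ⟨N, hN⟩ : ∃ N : Finset V,
        N = (G.neighborFinset v).filter fun a => ∀ b ∈ J, ¬ G.Adj a b := ⟨_, rfl⟩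
    have hN' : ∀ a, a ∈ N ↔ G.Adj v a ∧ ∀ b ∈ J, ¬ G.Adj a b := fun a => by simp [hN]
    have hnb : ∀ a b, G.Adj v a → G.Adj v b → ¬ G.Adj a b := fun a b ha hb hab =>
      G.isIndepSet_neighborSet_of_triangleFree hG v ha hb hab.ne hab
    have hvJ : ∀ b ∈ J, ¬ G.Adj v b := fun b hb hvb => hJW b hb ((hW' b).2 (Or.inr hvb))
    have hfib : F.filter (fun I => I \ W = J) =
        insert (insert v J) (N.powerset.image fun S => J ∪ S) := by
      ext I
      simp only [mem_filter, mem_insert, mem_image, mem_powerset]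
      constructor
      · rintro ⟨hI, hIJ⟩
        have hI' := (hmemF I).1 hI
        have hsub : ∀ a, a ∈ J → a ∈ I := fun a ha => (mem_sdiff.1 (hIJ.symm ▸ ha :)).1
        by_cases hv : v ∈ I
        · left
          ext a
          constructor
          · intro ha
            by_cases haW : a ∈ W
            · rcases (hW' a).1 haW with rfl | hva
              · exact mem_insert_self _ _
              · exact absurd hva (hI' v hv a ha)
            · exact mem_insert_of_mem (hIJ ▸ mem_sdiff.2 ⟨ha, haW⟩)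
          · intro ha
            rcases mem_insert.1 ha with rfl | ha
            exacts [hv, hsub a ha]
        · refine Or.inr ⟨I ∩ W, fun a ha => ?_, ?_⟩
          · obtain ⟨haI, haW⟩ := mem_inter.1 ha
            rcases (hW' a).1 haW with rfl | hva
            · exact absurd haI hv
            · exact (hN' a).2 ⟨hva, fun b hb => hI' a haI b (hsub b hb)⟩
          · rw [← hIJ]; exact sdiff_union_inter I W
      · rintro (rfl | ⟨S, hS, rfl⟩)
        · refine ⟨(hmemF _).2 fun a ha b hb => ?_, ?_⟩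
          · rcases mem_insert.1 ha with ea | ha <;> rcases mem_insert.1 hb with eb | hb
            exacts [ea ▸ eb ▸ G.irrefl, ea ▸ hvJ b hb, eb ▸ fun h => hvJ a ha h.symm,
              hJind a ha b hb]
          · ext a
            simp only [mem_sdiff, mem_insert]
            exact ⟨fun h => h.1.resolve_left fun e => h.2 ((hW' a).2 (Or.inl e)),
              fun h => ⟨Or.inr h, hJW a h⟩⟩
        · refine ⟨(hmemF _).2 fun a ha b hb => ?_, ?_⟩
          · rcases mem_union.1 ha with ha | ha <;> rcases mem_union.1 hb with hb | hb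
            · exact hJind a ha b hb
            · exact fun h => ((hN' b).1 (hS hb)).2 a ha h.symm
            · exact ((hN' a).1 (hS ha)).2 b hb
            · exact hnb a b ((hN' a).1 (hS ha)).1 ((hN' b).1 (hS hb)).1
          · ext a
            simp only [mem_sdiff, mem_union]
            exact ⟨fun h => h.1.resolve_right fun e => h.2 ((hW' a).2 (Or.inr ((hN' a).1 (hS e)).1)),
              fun h => ⟨Or.inl h, hJW a h⟩⟩
    have hnot : insert v J ∉ N.powerset.image fun S => J ∪ S := by
      rintro h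
      obtain ⟨S, hS, e⟩ := mem_image.1 h
      rcases mem_union.1 (e.symm ▸ mem_insert_self v J : v ∈ J ∪ S) with hv | hv
      · exact hJW v hv ((hW' v).2 (Or.inl rfl))
      · exact G.irrefl ((hN' v).1 (mem_powerset.1 hS hv)).1
    have hinj : Set.InjOn (fun S => J ∪ S) (N.powerset : Set (Finset V)) := by
      intro S hS S' hS' e
      have hdis : ∀ T ∈ N.powerset, (J ∪ T) \ J = T := fun T hT => by
        rw [union_sdiff_left, sdiff_eq_self_of_disjoint (disjoint_left.2 fun a ha haJ =>
          hJW a haJ ((hW' a).2 (Or.inr ((hN' a).1 (mem_powerset.1 hT ha)).1)))]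
      simp only at e
      rw [← hdis S hS, e, hdis S' hS']
    rw [hfib, sum_insert hnot, card_insert_of_notMem hnot, card_image_of_injOn hinj,
      sum_image hinj, card_powerset]
    have hXv : (d : ℝ) ≤ X v (insert v J) := by
      rw [hX]
      simp only [mem_insert_self, if_true]
      linarith [(Nat.cast_nonneg' _ : (0 : ℝ) ≤ ((insert v J ∩ G.neighborFinset v).card : ℝ))]
    have hXS : ∀ S ∈ N.powerset, (S.card : ℝ) ≤ X v (J ∪ S) := by
      intro S hS
      rw [hX]
      simp only
      have h1 : S.card ≤ ((J ∪ S) ∩ G.neighborFinset v).card := card_le_card fun a ha =>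
        mem_inter.2 ⟨mem_union_right _ ha,
          (G.mem_neighborFinset v a).2 ((hN' a).1 (mem_powerset.1 hS ha)).1⟩
      have h2 : (0 : ℝ) ≤ if v ∈ J ∪ S then (d : ℝ) else 0 := by split_ifs <;> positivity
      have h3 : (S.card : ℝ) ≤ (((J ∪ S) ∩ G.neighborFinset v).card : ℝ) := Nat.cast_le.2 h1
      linarith
    refine le_trans ?_ (add_le_add hXv (sum_le_sum hXS))
    rw [← Nat.cast_sum, sum_powerset_apply_card (fun k => k)]
    simp only [smul_eq_mul]
    rw [show ∑ m ∈ range (N.card + 1), N.card.choose m * m = N.card * 2 ^ (N.card - 1) by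
      rw [← Nat.sum_range_mul_choose]; exact sum_congr rfl fun m _ => mul_comm _ _]
    push_cast
    have := local_count_bound (Nat.one_le_cast.2 hd : (1 : ℝ) ≤ d) N.card
    push_cast at this
    linarith
  by_contra hcon
  push Not at hcon
  have hd0 : (0 : ℝ) < d := Nat.cast_pos.2 hd
  have h1 : ∑ v, (F.card : ℝ) * (Real.log d / 4) ≤ ∑ I ∈ F, 2 * (d : ℝ) * I.card :=
    (sum_le_sum fun v _ => hlow v).trans (sum_comm.trans_le (sum_le_sum hup))
  rw [sum_const, card_univ, nsmul_eq_mul] at h1
  have h2 : ∑ I ∈ F, 2 * (d : ℝ) * I.card <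
      ∑ _I ∈ F, 2 * (d : ℝ) * ((Fintype.card V : ℝ) * Real.log d / (8 * d)) :=
    sum_lt_sum_of_nonempty hne fun I hI => mul_lt_mul_of_pos_left
      (hcon I ((SimpleGraph.isIndepSet_iff _).2 fun a ha b hb _ => (hmemF I).1 hI a ha b hb))
      (by positivity)
  rw [sum_const, nsmul_eq_mul] at h2
  field_simp at h1 h2
  linarith

end FA.RamseyThree
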