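import Fermat.Agent.ErdosTetali.Space
import Mathlib.Data.Real.Basic

/-!
# The Lovász local lemma

For events on the random subsets of a finite set, each depending on the membership of the points of
its own support: if the probability of each event is at most `x c` times the product of `1 - x d`
over the other events with meeting support, some subset avoids them all.
-/

set_option autoImplicit false

noncomputable section

namespace FA.RamseyThree

open Finset FA.ErdosTetali

variable {ι γ : Type*} [DecidableEq ι] {p : ι → ℝ}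

/-- **Independence.** -/
theorem pmean_mul_eq (D : Finset ι) : ∀ (U : Finset ι) (f g : Finset ι → ℝ),
    (∀ a ∈ U, a ∉ D → ∀ S, f (insert a S) = f S) → (∀ a ∈ U, a ∈ D → ∀ S, g (insert a S) = g S) →
      pmean p U (fun S => f S * g S) = pmean p U f * pmean p U g := by
  intro U
  induction U using Finset.induction with
  | empty => intro f g _ _; simp [pmean_empty]
  | insert a U ha ih =>
    intro f g hf hg
    have hf' : ∀ b ∈ U, b ∉ D → ∀ S, f (insert b S) = f S := fun b hb =>
      hf b (mem_insert_of_mem hb)
    have hg' : ∀ b ∈ U, b ∈ D → ∀ S, g (insert b S) = g S := fun b hb =>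
      hg b (mem_insert_of_mem hb)
    simp only [pmean_insert ha]
    rw [ih f g hf' hg']
    by_cases haD : a ∈ D
    · simp only [hg a (mem_insert_self a U) haD]
      rw [ih (fun S => f (insert a S)) g (fun b hb hbD S => ?_) hg']
      · ring
      · show f (insert a (insert b S)) = f (insert a S)
        rw [insert_comm, hf' b hb hbD]
    · simp only [hf a (mem_insert_self a U) haD]
      rw [ih f (fun S => g (insert a S)) hf' fun b hb hbD S => ?_]
      · ring
      · show g (insert a (insert b S)) = g (insert a S)
        rw [insert_comm, hg' b hb hbD]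

open Classical in
/-- The indicator of avoiding the events in `Q`. -/
def avoidInd (B : γ → Finset ι → Prop) (Q : Finset γ) (S : Finset ι) : ℝ :=
  if ∀ c ∈ Q, ¬ B c S then 1 else 0

variable {U : Finset ι} {B : γ → Finset ι → Prop}

omit [DecidableEq ι] in
theorem avoidInd_nonneg (Q : Finset γ) (S : Finset ι) : 0 ≤ avoidInd B Q S := by
  classical
  rw [avoidInd]; split_ifs <;> norm_num

omit [DecidableEq ι] in
theorem avoidInd_anti [DecidableEq γ] {Q R : Finset γ} (h : R ⊆ Q) (S : Finset ι) :
    avoidInd B Q S ≤ avoidInd B R S := by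
  classical
  rw [avoidInd, avoidInd]
  split_ifs with h1 h2 h2
  · exact le_rfl
  · exact absurd (fun c hc => h1 c (h hc)) h2
  · exact zero_le_one
  · exact le_rfl

omit [DecidableEq ι] in
open Classical in
theorem avoidInd_insert [DecidableEq γ] (c : γ) (Q : Finset γ) (S : Finset ι) :
    avoidInd B (insert c Q) S =
      avoidInd B Q S - (if B c S then 1 else 0) * avoidInd B Q S := by
  simp only [avoidInd, forall_mem_insert]
  by_cases h1 : B c S <;> by_cases h2 : ∀ d ∈ Q, ¬ B d S <;> simp [h1, h2]

/-- **The Lovász local lemma.** -/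
theorem local_lemma [DecidableEq γ] (hp : IsWeight p) (T : Finset γ) (D : γ → Finset ι)
    (hB : ∀ c ∈ T, ∀ a, a ∉ D c → ∀ S, (B c (insert a S) ↔ B c S)) (x : γ → ℝ)
    (hx : ∀ c ∈ T, 0 ≤ x c ∧ x c < 1)
    (hcond : ∀ c ∈ T, ∀ [DecidablePred (B c)], pmean p U (fun S => if B c S then 1 else 0) ≤
      x c * ∏ d ∈ (T.erase c).filter (fun d => ¬ Disjoint (D d) (D c)), (1 - x d)) :
    ∃ S, S ⊆ U ∧ ∀ c ∈ T, ¬ B c S := by
  classical
  -- the chain lower bound from the one-step bound
  have chain : ∀ n : ℕ, (∀ Q : Finset γ, Q ⊆ T → Q.card < n → ∀ c ∈ T, c ∉ Q →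
      pmean p U (fun S => (if B c S then 1 else 0) * avoidInd B Q S) ≤
        x c * pmean p U (avoidInd B Q)) →
      ∀ E : Finset γ, ∀ R : Finset γ, E ⊆ T → R ⊆ T → Disjoint E R → E.card + R.card ≤ n →
        (∏ d ∈ E, (1 - x d)) * pmean p U (avoidInd B R) ≤ pmean p U (avoidInd B (E ∪ R)) := by
    intro n hn E
    induction E using Finset.induction with
    | empty => intro R _ _ _ _; simp
    | insert e E he ih =>
      intro R hE hR hdis hcard
      rw [card_insert_of_notMem he] at hcard
      rw [disjoint_insert_left] at hdis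
      have hET : E ⊆ T := fun d hd => hE (mem_insert_of_mem hd)
      have heT := hE (mem_insert_self e E)
      have h1 := ih R hET hR hdis.2 (by omega)
      have h2 := hn (E ∪ R) (union_subset hET hR)
        ((card_union_le _ _).trans_lt (by omega)) e heT
        (fun h => (mem_union.1 h).elim he hdis.1)
      have h3 : pmean p U (avoidInd B (insert e E ∪ R)) = pmean p U (avoidInd B (E ∪ R)) -
          pmean p U (fun S => (if B e S then 1 else 0) * avoidInd B (E ∪ R) S) := by
        rw [eq_sub_iff_add_eq, ← pmean_add, insert_union]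
        refine pmean_congr fun S _ => ?_
        rw [avoidInd_insert]; ring
      rw [h3, prod_insert he, mul_assoc]
      have := mul_le_mul_of_nonneg_left h1 (sub_nonneg.2 (hx e heT).2.le)
      linarith
  have key : ∀ n : ℕ, ∀ Q : Finset γ, Q ⊆ T → Q.card < n → ∀ c ∈ T, c ∉ Q →
      pmean p U (fun S => (if B c S then 1 else 0) * avoidInd B Q S) ≤
        x c * pmean p U (avoidInd B Q) := by
    intro n
    induction n with
    | zero => exact fun Q _ h => absurd h (Nat.not_lt_zero _)
    | succ n ih =>
      intro Q hQ hcard c hc hcQ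
      obtain ⟨E, hE⟩ : ∃ E, E = Q.filter fun d => ¬ Disjoint (D d) (D c) := ⟨_, rfl⟩
      obtain ⟨R, hR⟩ : ∃ R, R = Q.filter fun d => Disjoint (D d) (D c) := ⟨_, rfl⟩
      have hQE : E ∪ R = Q := by
        rw [hE, hR, union_comm]; exact filter_union_filter_not_eq _ Q
      have hER : Disjoint E R := by
        rw [hE, hR]; exact (disjoint_filter_filter_not _ _ _).symm
      have hle : pmean p U (fun S => (if B c S then 1 else 0) * avoidInd B Q S) ≤
          pmean p U (fun S => (if B c S then 1 else 0) * avoidInd B R S) :=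
        pmean_mono hp fun S _ => mul_le_mul_of_nonneg_left
          (avoidInd_anti (hR ▸ filter_subset _ _) S) (by split_ifs <;> norm_num)
      have hmul : pmean p U (fun S => (if B c S then 1 else 0) * avoidInd B R S) =
          pmean p U (fun S => if B c S then 1 else 0) * pmean p U (avoidInd B R) := by
        refine pmean_mul_eq (D c) U _ _ (fun a _ ha S => if_congr (hB c hc a ha S) rfl rfl)
          fun a _ ha S => ?_
        refine if_congr (forall₂_congr fun d hd => not_congr ?_) rfl rfl
        obtain ⟨hdQ, hdd⟩ := mem_filter.1 (hR ▸ hd :)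
        exact hB d (hQ hdQ) a (fun h => disjoint_left.1 hdd h ha) S
      rw [hmul] at hle
      refine hle.trans ((mul_le_mul_of_nonneg_right (hcond c hc)
        (pmean_nonneg hp fun S _ => avoidInd_nonneg R S)).trans ?_)
      rw [mul_assoc]
      refine mul_le_mul_of_nonneg_left ?_ (hx c hc).1
      have h1 := chain n (fun Q' h1 h2 => ih Q' h1 h2) E R (hE ▸ (filter_subset _ _).trans hQ)
        (hR ▸ (filter_subset _ _).trans hQ) hER (by
          rw [← card_union_of_disjoint hER, hQE]; omega)
      rw [hQE] at h1
      refine le_trans (mul_le_mul_of_nonneg_right ?_ (pmean_nonneg hp fun S _ =>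
        avoidInd_nonneg R S)) h1
      refine prod_le_prod_of_subset_of_le_one (fun d hd => ?_) (fun d hd => ?_) fun d hd _ => ?_
      · obtain ⟨hdQ, hdd⟩ := mem_filter.1 (hE ▸ hd)
        exact mem_filter.2 ⟨mem_erase.2 ⟨fun e => hcQ (e ▸ hdQ), hQ hdQ⟩, hdd⟩
      · exact sub_nonneg.2 (hx d (mem_of_mem_erase (mem_filter.1 hd).1)).2.le
      · linarith [(hx d (mem_of_mem_erase (mem_filter.1 hd).1)).1]
  have hpos : 0 < pmean p U (avoidInd B T) := by
    have h1 := chain T.card (key T.card) T ∅ subset_rfl (empty_subset _)
      (disjoint_empty_right _) (by simp)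
    rw [union_empty, show avoidInd B (∅ : Finset γ) = fun _ => (1 : ℝ) by
      funext S; simp [avoidInd], pmean_const, mul_one] at h1
    exact lt_of_lt_of_le (prod_pos fun d hd => sub_pos.2 (hx d hd).2) h1
  by_contra hcon
  push Not at hcon
  refine absurd hpos (not_lt.2 (le_of_eq ((pmean_congr fun S hS => ?_).trans (pmean_const 0))))
  obtain ⟨c, hc, hBc⟩ := hcon S hS
  rw [avoidInd, if_neg fun h => h c hc hBc]

end FA.RamseyThree
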