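import Fermat.Agent.RamseyThree.Independence
import Fermat.Agent.RamseyThree.LocalLemma
import Mathlib.Data.Sym.Card
import Mathlib.Analysis.Complex.ExponentialBounds

/-!
# The Ramsey numbers `R (3, t)`

Every graph on more than `8 t ^ 2 / log t` vertices has a triangle or `t` independent vertices
(Ajtai, Komlós and Szemerédi), and some graph on `t ^ 2 / (72 log t) ^ 2` vertices has neither
(Erdős; by the local lemma, following Spencer).
-/

set_option autoImplicit false

noncomputable section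

namespace FA.RamseyThree

open Finset FA.ErdosTetali

/-- **The upper bound.** -/
theorem exists_triangle_or_indep {n t : ℕ} (ht : 2 ≤ t)
    (hn : 8 * (t : ℝ) ^ 2 / Real.log t < n) (G : SimpleGraph (Fin n)) :
    (∃ s, G.IsNClique 3 s) ∨ ∃ s, G.IsNIndepSet t s := by
  classical
  by_contra hcon
  rw [not_or, not_exists, not_exists] at hcon
  obtain ⟨hclique, hind⟩ := hcon
  have hsmall : ∀ I : Finset (Fin n), G.IsIndepSet ↑I → I.card < t := by
    intro I hI
    by_contra h
    obtain ⟨s, hs, hcard⟩ := exists_subset_card_eq (not_lt.1 h)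
    exact hind s ⟨fun a ha b hb hab => hI (hs ha) (hs hb) hab, hcard⟩
  have hdeg : ∀ v, G.degree v ≤ t := fun v => by
    rw [← G.card_neighborFinset_eq_degree]
    refine (hsmall _ ?_).le
    rw [SimpleGraph.coe_neighborFinset]
    exact G.isIndepSet_neighborSet_of_triangleFree hclique v
  obtain ⟨I, hI, hcard⟩ := exists_indepSet_card_ge G hclique (by omega : 1 ≤ t) hdeg
  have hlt : (I.card : ℝ) < t := Nat.cast_lt.2 (hsmall I hI)
  have ht0 : (0 : ℝ) < t := Nat.cast_pos.2 (by omega)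
  have hlog : 0 < Real.log t := Real.log_pos (Nat.one_lt_cast.2 (by omega))
  rw [Fintype.card_fin, div_le_iff₀ (by positivity)] at hcard
  rw [div_lt_iff₀ hlog] at hn
  nlinarith [mul_lt_mul_of_pos_right hlt (show (0 : ℝ) < 8 * t by positivity)]

variable {α : Type*} [DecidableEq α]

/-- The pairs inside a set. -/
def pairsIn (s : Finset α) : Finset (Sym2 α) := s.offDiag.image Sym2.mk.uncurry

theorem card_pairsIn (s : Finset α) : (pairsIn s).card = s.card.choose 2 :=
  Sym2.card_image_offDiag s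

theorem mk_mem_pairsIn {s : Finset α} {a b : α} :
    s(a, b) ∈ pairsIn s ↔ a ∈ s ∧ b ∈ s ∧ a ≠ b := by
  simp only [pairsIn, mem_image, mem_offDiag, Prod.exists, Function.uncurry_apply_pair, Sym2.eq_iff]
  constructor
  · rintro ⟨x, y, ⟨h1, h2, h3⟩, ⟨rfl, rfl⟩ | ⟨rfl, rfl⟩⟩
    exacts [⟨h1, h2, h3⟩, ⟨h2, h1, h3.symm⟩]
  · exact fun h => ⟨a, b, h, Or.inl ⟨rfl, rfl⟩⟩

theorem isClique_fromEdgeSet {s : Finset α} {S : Finset (Sym2 α)} :
    (SimpleGraph.fromEdgeSet (S : Set (Sym2 α))).IsClique ↑s ↔ pairsIn s ⊆ S := by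
  constructor
  · intro h e he
    induction e using Sym2.ind with
    | h a b =>
      obtain ⟨ha, hb, hab⟩ := mk_mem_pairsIn.1 he
      exact mem_coe.1 (h ha hb hab).1
  · exact fun h a ha b hb hab => ⟨mem_coe.2 (h (mk_mem_pairsIn.2 ⟨ha, hb, hab⟩)), hab⟩

theorem isIndepSet_fromEdgeSet {s : Finset α} {S : Finset (Sym2 α)} :
    (SimpleGraph.fromEdgeSet (S : Set (Sym2 α))).IsIndepSet ↑s ↔ Disjoint (pairsIn s) S := by
  rw [disjoint_left]
  constructor
  · intro h e he heS
    induction e using Sym2.ind with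
    | h a b =>
      obtain ⟨ha, hb, hab⟩ := mk_mem_pairsIn.1 he
      exact h ha hb hab ⟨mem_coe.2 heS, hab⟩
  · exact fun h a ha b hb hab hadj => h (mk_mem_pairsIn.2 ⟨ha, hb, hab⟩) (mem_coe.1 hadj.1)

theorem pmean_disjoint {ι : Type*} [DecidableEq ι] {p : ι → ℝ} {U : Finset ι} :
    ∀ {B : Finset ι}, B ⊆ U →
      pmean p U (fun S => if Disjoint B S then 1 else 0) = ∏ i ∈ B, (1 - p i) := by
  intro B
  induction B using Finset.induction with
  | empty => intro _; simp [pmean_const]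
  | insert b B hb ih =>
    intro hU
    have h1 : pmean p U (fun S => if b ∈ S then (1 : ℝ) else 0) = p b := by
      rw [pmean_congr (g := fun S => if {b} ⊆ S then (1 : ℝ) else 0) fun S _ =>
        if_congr singleton_subset_iff.symm rfl rfl,
        pmean_subset_indicator (singleton_subset_iff.2 (hU (mem_insert_self b B))), prod_singleton]
    have hb1 : pmean p U (fun S => if b ∈ S then (0 : ℝ) else 1) = 1 - p b := by
      rw [eq_sub_iff_add_eq, ← h1, ← pmean_add, ← pmean_const (p := p) (U := U) (1 : ℝ)]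
      refine pmean_congr fun S _ => ?_
      rw [pmean_const]; split_ifs <;> norm_num
    have hmul := pmean_mul_eq (p := p) {b} U (fun S => if b ∈ S then (0 : ℝ) else 1)
      (fun S => if Disjoint B S then (1 : ℝ) else 0)
      (fun a _ ha S => if_congr (by simp [mem_singleton] at ha; simp [Ne.symm ha]) rfl rfl)
      (fun a _ ha S => if_congr (by
        simp only [mem_singleton] at ha
        subst ha
        simp [disjoint_insert_right, hb]) rfl rfl)
    rw [prod_insert hb, ← ih fun a ha => hU (mem_insert_of_mem ha), ← hb1, ← hmul]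
    refine pmean_congr fun S _ => ?_
    by_cases hS : b ∈ S <;> simp [disjoint_insert_left, hS]

theorem meeting_triples_card {n : ℕ} (s : Finset (Fin n)) :
    ((univ.powersetCard 3).filter fun d => ¬ Disjoint (pairsIn d) (pairsIn s)).card ≤
      s.card.choose 2 * n := by
  refine (card_le_card (t := (pairsIn s ×ˢ (univ : Finset (Fin n))).image
    fun x => insert x.2 x.1.toFinset) fun d hd => ?_).trans
      (card_image_le.trans (by rw [card_product, card_pairsIn, card_univ, Fintype.card_fin]))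
  obtain ⟨hd3, hmeet⟩ := mem_filter.1 hd
  rw [not_disjoint_iff] at hmeet
  obtain ⟨e, hed, hes⟩ := hmeet
  induction e using Sym2.ind with
  | h a b =>
    obtain ⟨ha, hb, hab⟩ := mk_mem_pairsIn.1 hed
    have hsub : ({a, b} : Finset (Fin n)) ⊆ d := insert_subset ha (singleton_subset_iff.2 hb)
    have hcard : (d \ {a, b}).card = 1 := by
      rw [card_sdiff_of_subset hsub, (mem_powersetCard.1 hd3).2, card_pair hab]
    obtain ⟨w, hw⟩ := card_eq_one.1 hcard
    refine mem_image.2 ⟨(s(a, b), w), mem_product.2 ⟨hes, mem_univ _⟩, ?_⟩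
    rw [← union_sdiff_of_subset hsub, hw]
    ext x
    simp only [Sym2.mem_toFinset, mem_insert, mem_union, mem_singleton, Sym2.mem_iff]
    tauto

/-- **The lower bound.** -/
theorem exists_free_graph {n t : ℕ} (hn : 1 ≤ n)
    (ht : 24 * √(n : ℝ) * (1 + Real.log n) ≤ t) :
    ∃ G : SimpleGraph (Fin n), (∀ s, ¬ G.IsNClique 3 s) ∧ ∀ s, ¬ G.IsNIndepSet t s := by
  classical
  obtain ⟨r, hr⟩ : ∃ r, r = √(n : ℝ) := ⟨_, rfl⟩
  obtain ⟨L, hL⟩ : ∃ L, L = Real.log n := ⟨_, rfl⟩
  have hn1 : (1 : ℝ) ≤ n := Nat.one_le_cast.2 hn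
  have hr1 : 1 ≤ r := hr ▸ Real.one_le_sqrt.2 hn1
  have hr2 : r ^ 2 = n := hr ▸ Real.sq_sqrt (by linarith)
  have hL0 : 0 ≤ L := hL ▸ Real.log_nonneg hn1
  rw [← hr, ← hL] at ht
  have ht24 : (24 : ℝ) ≤ t := by nlinarith
  have ht3 : t ≠ 3 := fun h => by rw [h] at ht24; norm_num at ht24
  obtain ⟨q, hq⟩ : ∃ q : ℝ, q = (6 * r)⁻¹ := ⟨_, rfl⟩
  have hq0 : 0 < q := hq ▸ by positivity
  have hq6 : q ≤ 1 / 6 := by
    rw [hq, inv_eq_one_div]; exact one_div_le_one_div_of_le (by norm_num) (by linarith)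
  have hqn : (n : ℝ) * q ^ 2 = 1 / 36 := by
    rw [hq, ← hr2]; field_simp; norm_num
  obtain ⟨y, hy⟩ : ∃ y : ℝ, y = 4 * q ^ 3 := ⟨_, rfl⟩
  obtain ⟨z, hz⟩ : ∃ z : ℝ, z = 1 / (2 * (n : ℝ) ^ t) := ⟨_, rfl⟩
  have hy0 : 0 < y := hy ▸ by positivity
  have hqq : q ^ 3 ≤ q := by
    simpa using pow_le_pow_of_le_one hq0.le (by linarith) (show 1 ≤ 3 by norm_num)
  have hy1 : y ≤ 2 / 3 := by
    rw [hy]; linarith
  have hz0 : 0 < z := hz ▸ by positivity
  have hnt : (1 : ℝ) ≤ (n : ℝ) ^ t := one_le_pow₀ hn1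
  have hz1 : z ≤ 1 / 2 := by
    rw [hz]; exact one_div_le_one_div_of_le two_pos (by linarith)
  have hp : IsWeight (fun _ : Sym2 (Fin n) => q) := fun _ => ⟨hq0.le, by linarith⟩
  obtain ⟨T, hT⟩ : ∃ T : Finset (Finset (Fin n)),
      T = univ.powersetCard 3 ∪ univ.powersetCard t := ⟨_, rfl⟩
  obtain ⟨B, hB⟩ : ∃ B : Finset (Fin n) → Finset (Sym2 (Fin n)) → Prop,
      B = fun c S => if c.card = 3 then pairsIn c ⊆ S else Disjoint (pairsIn c) S := ⟨_, rfl⟩
  obtain ⟨x, hx⟩ : ∃ x : Finset (Fin n) → ℝ, x = fun c => if c.card = 3 then y else z := ⟨_, rfl⟩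
  have hTmem : ∀ c, c ∈ T ↔ c.card = 3 ∨ c.card = t := fun c => by
    simp [hT, mem_powersetCard]
  -- the product over the neighbours of an event
  have hprod : ∀ c ∈ T, (1 - y) ^ (c.card.choose 2 * n) * (1 / 2) ≤
      ∏ d ∈ (T.erase c).filter (fun d => ¬ Disjoint (pairsIn d) (pairsIn c)), (1 - x d) := by
    intro c hc
    obtain ⟨F, hF⟩ : ∃ F, F = (T.erase c).filter fun d => ¬ Disjoint (pairsIn d) (pairsIn c) :=
      ⟨_, rfl⟩
    rw [← hF, ← prod_filter_mul_prod_filter_not F (fun d => d.card = 3),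
      prod_congr rfl fun d hd => show 1 - x d = 1 - y by rw [hx]; simp [(mem_filter.1 hd).2],
      prod_congr (s₁ := F.filter fun d => ¬ d.card = 3) rfl fun d hd =>
        show 1 - x d = 1 - z by rw [hx]; simp [(mem_filter.1 hd).2], prod_const, prod_const]
    refine mul_le_mul ?_ ?_ (by norm_num) (pow_nonneg (by linarith) _)
    · refine pow_le_pow_of_le_one (by linarith) (by linarith)
        ((card_le_card fun d hd => ?_).trans (meeting_triples_card c))
      obtain ⟨hdF, hd3⟩ := mem_filter.1 hd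
      exact mem_filter.2 ⟨mem_powersetCard.2 ⟨subset_univ _, hd3⟩,
        (mem_filter.1 (hF ▸ hdF :)).2⟩
    · have hcard : (F.filter fun d => ¬ d.card = 3).card ≤ n ^ t := by
        refine (card_le_card (t := (univ : Finset (Fin n)).powersetCard t) fun d hd => ?_).trans ?_
        · obtain ⟨hdF, hd3⟩ := mem_filter.1 hd
          have := (mem_erase.1 (mem_filter.1 (hF ▸ hdF :)).1).2
          exact mem_powersetCard.2 ⟨subset_univ _, ((hTmem d).1 this).resolve_left hd3⟩
        · rw [card_powersetCard, card_univ, Fintype.card_fin]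
          exact Nat.choose_le_pow n t
      have h2 := one_add_mul_le_pow (show (-2 : ℝ) ≤ -z by linarith)
        (F.filter fun d => ¬ d.card = 3).card
      rw [← sub_eq_add_neg] at h2
      have h3 : ((F.filter fun d => ¬ d.card = 3).card : ℝ) * z ≤ 1 / 2 := by
        refine (mul_le_mul_of_nonneg_right (Nat.cast_le.2 hcard) hz0.le).trans (le_of_eq ?_)
        rw [hz, Nat.cast_pow]; field_simp
      linarith
  have hcond : ∀ c ∈ T, ∀ [DecidablePred (B c)],
      pmean (fun _ : Sym2 (Fin n) => q) (pairsIn (univ : Finset (Fin n)))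
        (fun S => if B c S then 1 else 0) ≤
          x c * ∏ d ∈ (T.erase c).filter (fun d => ¬ Disjoint (pairsIn d) (pairsIn c)), (1 - x d) := by
    intro c hc inst
    have hsubU : pairsIn c ⊆ pairsIn (univ : Finset (Fin n)) := image_subset_image
      (fun e he => by
        simp only [mem_offDiag] at he ⊢
        exact ⟨mem_univ _, mem_univ _, he.2.2⟩)
    refine le_trans ?_ (mul_le_mul_of_nonneg_left (hprod c hc)
      (by rw [hx]; simp only; split_ifs <;> linarith))
    by_cases h3 : c.card = 3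
    · rw [pmean_congr (g := fun S => if pairsIn c ⊆ S then (1 : ℝ) else 0) fun S _ =>
        if_congr (by rw [hB]; simp [h3]) rfl rfl, pmean_subset_indicator hsubU, prod_const,
        card_pairsIn, h3]
      have h2 := one_add_mul_le_pow (show (-2 : ℝ) ≤ -y by linarith) (Nat.choose 3 2 * n)
      rw [← sub_eq_add_neg] at h2
      have hny : ((Nat.choose 3 2 * n : ℕ) : ℝ) * y ≤ 1 / 2 := by
        rw [hy, show Nat.choose 3 2 = 3 from rfl]
        push_cast
        nlinarith
      rw [hx]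
      simp only [h3, if_true]
      rw [show Nat.choose 3 2 = 3 from rfl] at h2 hny ⊢
      calc q ^ 3 = y * ((1 / 2) * (1 / 2)) := by rw [hy]; ring
        _ ≤ _ := mul_le_mul_of_nonneg_left
            (mul_le_mul_of_nonneg_right (by linarith) (by norm_num)) hy0.le
    · have hct : c.card = t := ((hTmem c).1 hc).resolve_left h3
      rw [pmean_congr (g := fun S => if Disjoint (pairsIn c) S then (1 : ℝ) else 0) fun S _ =>
        if_congr (by rw [hB]; simp [h3]) rfl rfl, pmean_disjoint hsubU, prod_const,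
        card_pairsIn, hct]
      rw [hx]
      simp only [h3, if_false]
      obtain ⟨m, hm⟩ : ∃ m, m = Nat.choose t 2 := ⟨_, rfl⟩
      have hm' : (m : ℝ) = (t : ℝ) * ((t : ℝ) - 1) / 2 := by
        rw [hm, Nat.cast_choose_two]
      rw [← hm]
      have h1 : (1 - q) ^ m ≤ Real.exp (-((m : ℝ) * q)) := by
        refine (pow_le_pow_left₀ (by linarith) (Real.one_sub_le_exp_neg q) m).trans (le_of_eq ?_)
        rw [← Real.exp_nat_mul]; ring_nf
      have hy2 : y ≤ 1 / 2 := by
        rw [hy]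
        have : q ^ 3 ≤ (1 / 6 : ℝ) ^ 3 := pow_le_pow_left₀ hq0.le hq6 3
        linarith
      have h2 : Real.exp (-(2 * y)) ≤ 1 - y := by
        rw [Real.exp_neg, inv_le_iff_one_le_mul₀ (Real.exp_pos _)]
        refine le_trans ?_ (mul_le_mul_of_nonneg_left (Real.add_one_le_exp (2 * y)) (by linarith))
        nlinarith
      have h3' : Real.exp (-(2 * y) * ((m * n : ℕ) : ℝ)) ≤ (1 - y) ^ (m * n) := by
        rw [mul_comm (-(2 * y)), Real.exp_nat_mul]
        exact pow_le_pow_left₀ (Real.exp_nonneg _) h2 _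
      have hnpow : (n : ℝ) ^ t = Real.exp ((t : ℝ) * L) := by
        rw [Real.exp_nat_mul, hL, Real.exp_log (by linarith)]
      have h4 : Real.exp (-((t : ℝ) * L) - 2) ≤ z * (1 / 2) := by
        rw [hz, hnpow, Real.exp_sub, Real.exp_neg]
        have h5 : (4 : ℝ) ≤ Real.exp 2 := by
          have := Real.add_one_le_exp (1 : ℝ)
          rw [show (2 : ℝ) = 1 + 1 by norm_num, Real.exp_add]
          nlinarith
        field_simp
        linarith
      refine h1.trans (le_trans ?_ (le_of_eq (show z * (1 / 2) * (1 - y) ^ (m * n) =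
        z * ((1 - y) ^ (m * n) * (1 / 2)) by ring)))
      refine le_trans ?_ (mul_le_mul h4 h3' (Real.exp_nonneg _) (by positivity))
      rw [← Real.exp_add, Real.exp_le_exp, hy, Nat.cast_mul]
      have hmain : (t : ℝ) * L + 2 ≤ (7 / 9) * ((m : ℝ) * q) := by
        have h6 : 4 * (1 + L) ≤ (t : ℝ) * q := by
          rw [hq, ← div_eq_mul_inv, le_div_iff₀ (by positivity)]
          linarith
        rw [hm']
        nlinarith [mul_le_mul_of_nonneg_left h6 (show (0 : ℝ) ≤ (t : ℝ) - 1 by linarith)]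
      have h7 : 2 * (4 * q ^ 3) * ((m : ℝ) * n) = (2 / 9) * ((m : ℝ) * q) := by
        linear_combination (8 * (m : ℝ) * q) * hqn
      linarith
  obtain ⟨S, -, hS⟩ := local_lemma (U := pairsIn (univ : Finset (Fin n))) (B := B) hp T pairsIn
    (fun c hc a ha S => by
      rw [hB]
      simp only
      split_ifs with h3
      · exact ⟨fun h b hb => ((mem_insert.1 (h hb)).resolve_left fun e => ha (e ▸ hb)),
          fun h => h.trans (subset_insert _ _)⟩
      · simp [disjoint_insert_right, ha])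
    x (fun c _ => by rw [hx]; simp only; split_ifs <;> constructor <;> linarith) hcond
  refine ⟨SimpleGraph.fromEdgeSet (S : Set (Sym2 (Fin n))), fun s hs => ?_, fun s hs => ?_⟩
  · refine hS s ((hTmem s).2 (Or.inl hs.card_eq)) ?_
    rw [hB]
    simp only
    rw [if_pos hs.card_eq]
    exact isClique_fromEdgeSet.1 hs.isClique
  · have hs3 : s.card ≠ 3 := by rw [hs.card_eq]; exact ht3
    refine hS s ((hTmem s).2 (Or.inr hs.card_eq)) ?_
    rw [hB]
    simp only
    rw [if_neg hs3]
    exact isIndepSet_fromEdgeSet.1 hs.isIndepSet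

open Classical in
/-- `R (3, t)`: the least number of vertices forcing a triangle or `t` independent vertices. -/
def ramseyThree (t : ℕ) : ℕ :=
  sInf {n | ∀ G : SimpleGraph (Fin n), (∃ s, G.IsNClique 3 s) ∨ ∃ s, G.IsNIndepSet t s}

theorem ramseyThree_le {t : ℕ} (ht : 2 ≤ t) :
    (ramseyThree t : ℝ) ≤ 8 * (t : ℝ) ^ 2 / Real.log t + 1 := by
  obtain ⟨n, hn⟩ : ∃ n, n = ⌊8 * (t : ℝ) ^ 2 / Real.log t⌋₊ + 1 := ⟨_, rfl⟩
  have h0 : 0 ≤ 8 * (t : ℝ) ^ 2 / Real.log t :=
    div_nonneg (by positivity) (Real.log_natCast_nonneg t)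
  have h1 : ramseyThree t ≤ n := Nat.sInf_le (fun G => exists_triangle_or_indep ht (by
    rw [hn, Nat.cast_add, Nat.cast_one]; exact Nat.lt_floor_add_one _) G)
  calc (ramseyThree t : ℝ) ≤ n := Nat.cast_le.2 h1
    _ ≤ _ := by
        rw [hn, Nat.cast_add, Nat.cast_one]
        linarith [Nat.floor_le h0]

theorem exists_free_of_le {n t : ℕ} (ht : 3 ≤ t)
    (hn : (n : ℝ) ≤ (t : ℝ) ^ 2 / (72 * Real.log t) ^ 2) :
    ∃ G : SimpleGraph (Fin n), (∀ s, ¬ G.IsNClique 3 s) ∧ ∀ s, ¬ G.IsNIndepSet t s := by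
  rcases Nat.eq_zero_or_pos n with rfl | hn1
  · exact ⟨⊥, fun s hs => by simpa [Subsingleton.elim s ∅] using hs.card_eq,
      fun s hs => by have := hs.card_eq; simp [Subsingleton.elim s ∅] at this; omega⟩
  refine exists_free_graph hn1 ?_
  have ht3 : (3 : ℝ) ≤ t := by exact_mod_cast ht
  have hlt : 1 ≤ Real.log t := by
    rw [Real.le_log_iff_exp_le (by linarith)]
    linarith [Real.exp_one_lt_d9]
  have hn1' : (1 : ℝ) ≤ n := Nat.one_le_cast.2 hn1
  have hr : √(n : ℝ) ≤ (t : ℝ) / (72 * Real.log t) := by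
    rw [Real.sqrt_le_iff]
    exact ⟨by positivity, by rwa [div_pow]⟩
  have hlog : Real.log n ≤ 2 * Real.log t := by
    have h := Real.log_le_log (by linarith : (0 : ℝ) < n) (hn.trans (div_le_self (by positivity)
      (one_le_pow₀ (by linarith))))
    rwa [Real.log_pow, Nat.cast_ofNat] at h
  calc 24 * √(n : ℝ) * (1 + Real.log n) ≤ 24 * ((t : ℝ) / (72 * Real.log t)) * (3 * Real.log t) :=
        mul_le_mul (mul_le_mul_of_nonneg_left hr (by norm_num)) (by linarith)
          (by linarith [Real.log_nonneg hn1']) (by positivity)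
    _ = (t : ℝ) := by field_simp; ring

theorem ramseyThree_gt {t : ℕ} (ht : 3 ≤ t) :
    (t : ℝ) ^ 2 / (72 * Real.log t) ^ 2 < ramseyThree t := by
  by_contra hcon
  push Not at hcon
  have hne : {n | ∀ G : SimpleGraph (Fin n),
      (∃ s, G.IsNClique 3 s) ∨ ∃ s, G.IsNIndepSet t s}.Nonempty :=
    ⟨⌊8 * (t : ℝ) ^ 2 / Real.log t⌋₊ + 1, fun G => exists_triangle_or_indep (by omega)
      (by rw [Nat.cast_add, Nat.cast_one]; exact Nat.lt_floor_add_one _) G⟩
  obtain ⟨G, h1, h2⟩ := exists_free_of_le ht hcon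
  rcases Nat.sInf_mem hne G with ⟨s, hs⟩ | ⟨s, hs⟩
  exacts [h1 s hs, h2 s hs]

end FA.RamseyThree
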